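import Mathlib.AlgebraicGeometry.EllipticCurve.VariableChange
import Mathlib.AlgebraicGeometry.EllipticCurve.Affine.Point
import Mathlib.Tactic.LinearCombination
import Mathlib.Tactic.FieldSimp
import Fermat.Prelude.Def_FLTPrelim_GaloisRep
import Fermat.Agent.LevelTwo.ModelInvariance

/-!
# Changes of variables on points of Weierstrass curves

The group isomorphism on points induced by a change of variables, its compatibility with the
Galois action, and invariance of irreducibility of the torsion representation.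
-/

set_option autoImplicit false

noncomputable section

open WeierstrassCurve

namespace Fermat.Agent.VariableChangePoints

section Hom

variable {F : Type*} [Field F] [DecidableEq F] {V W : WeierstrassCurve F} (C : VariableChange F)

/-- `x ↦ u²x + r`. -/
def mapX (x : F) : F := (C.u : F) ^ 2 * x + C.r

/-- `(x, y) ↦ u³y + u²sx + t`. -/
def mapY (x y : F) : F := (C.u : F) ^ 3 * y + (C.u : F) ^ 2 * C.s * x + C.t

omit [DecidableEq F] in
theorem mapX_injective : Function.Injective (mapX C) := fun x x' h => by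
  simpa [mapX] using h

variable {C}

omit [DecidableEq F] in
theorem mapY_inj {x y y' : F} : mapY C x y = mapY C x y' ↔ y = y' := by simp [mapY]

variable (hV : V = C • W)

include hV

omit [DecidableEq F] in
/-- Nonsingular points map to nonsingular points. -/
theorem nonsingular_map {x y : F} (h : V.toAffine.Nonsingular x y) :
    W.toAffine.Nonsingular (mapX C x) (mapY C x y) := by
  subst hV
  exact (LevelTwo.variableChange_nonsingular_iff C W x y).1 h

omit [DecidableEq F] in
/-- The transformation law of `a₁`. -/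
theorem a₁_eq : (C.u : F) * V.a₁ = W.a₁ + 2 * C.s := by
  subst hV; rw [variableChange_a₁, ← mul_assoc, C.u.mul_inv, one_mul]

omit [DecidableEq F] in
theorem a₂_eq : (C.u : F) ^ 2 * V.a₂ = W.a₂ - C.s * W.a₁ + 3 * C.r - C.s ^ 2 := by
  subst hV; rw [variableChange_a₂, ← mul_assoc, ← mul_pow, C.u.mul_inv, one_pow, one_mul]

omit [DecidableEq F] in
/-- The transformation law of `a₃`. -/
theorem a₃_eq : (C.u : F) ^ 3 * V.a₃ = W.a₃ + C.r * W.a₁ + 2 * C.t := by
  subst hV; rw [variableChange_a₃, ← mul_assoc, ← mul_pow, C.u.mul_inv, one_pow, one_mul]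

omit [DecidableEq F] in
theorem a₄_eq : (C.u : F) ^ 4 * V.a₄ = W.a₄ - C.s * W.a₃ + 2 * C.r * W.a₂
    - (C.t + C.r * C.s) * W.a₁ + 3 * C.r ^ 2 - 2 * C.s * C.t := by
  subst hV; rw [variableChange_a₄, ← mul_assoc, ← mul_pow, C.u.mul_inv, one_pow, one_mul]

omit [DecidableEq F] in
theorem negY_map (x y : F) :
    W.toAffine.negY (mapX C x) (mapY C x y) = mapY C x (V.toAffine.negY x y) := by
  simp only [Affine.negY, mapX, mapY]
  linear_combination (C.u : F) ^ 2 * x * a₁_eq hV + a₃_eq hV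

theorem slope_map {x₁ x₂ y₁ y₂ : F} (h₁ : V.toAffine.Equation x₁ y₁)
    (h₂ : V.toAffine.Equation x₂ y₂) (hxy : ¬(x₁ = x₂ ∧ y₁ = V.toAffine.negY x₂ y₂)) :
    W.toAffine.slope (mapX C x₁) (mapX C x₂) (mapY C x₁ y₁) (mapY C x₂ y₂) =
      (C.u : F) * V.toAffine.slope x₁ x₂ y₁ y₂ + C.s := by
  have hu : (C.u : F) ≠ 0 := C.u.ne_zero
  by_cases hx : x₁ = x₂
  · subst hx
    have hy : y₁ ≠ V.toAffine.negY x₁ y₂ := fun h => hxy ⟨rfl, h⟩
    obtain rfl : y₁ = y₂ := Affine.Y_eq_of_Y_ne h₁ h₂ rfl hy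
    have hy' : mapY C x₁ y₁ ≠ W.toAffine.negY (mapX C x₁) (mapY C x₁ y₁) := by
      rw [negY_map hV, ne_eq, mapY_inj]; exact hy
    rw [Affine.slope_of_Y_ne rfl hy', Affine.slope_of_Y_ne rfl hy]
    have hd : y₁ - V.toAffine.negY x₁ y₁ ≠ 0 := sub_ne_zero.mpr hy
    have eden : mapY C x₁ y₁ - W.toAffine.negY (mapX C x₁) (mapY C x₁ y₁) =
        (C.u : F) ^ 3 * (y₁ - V.toAffine.negY x₁ y₁) := by
      rw [negY_map hV, mapY, mapY]; ring
    have enum : 3 * mapX C x₁ ^ 2 + 2 * W.toAffine.a₂ * mapX C x₁ + W.toAffine.a₄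
          - W.toAffine.a₁ * mapY C x₁ y₁ =
        (C.u : F) ^ 4 * (3 * x₁ ^ 2 + 2 * V.toAffine.a₂ * x₁ + V.toAffine.a₄
          - V.toAffine.a₁ * y₁) + C.s * ((C.u : F) ^ 3 * (y₁ - V.toAffine.negY x₁ y₁)) := by
      simp only [mapX, mapY, Affine.negY]
      linear_combination (-2 * (C.u : F) ^ 2 * x₁) * a₂_eq hV - a₄_eq hV
        + ((C.u : F) ^ 3 * y₁ - C.s * (C.u : F) ^ 2 * x₁) * a₁_eq hV - C.s * a₃_eq hV
    rw [eden, enum]
    field_simp
  · have hx' : mapX C x₁ ≠ mapX C x₂ := fun h => hx (mapX_injective C h)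
    rw [Affine.slope_of_X_ne hx', Affine.slope_of_X_ne hx]
    have hd : x₁ - x₂ ≠ 0 := sub_ne_zero.mpr hx
    simp only [mapX, mapY]
    rw [show (C.u : F) ^ 2 * x₁ + C.r - ((C.u : F) ^ 2 * x₂ + C.r) = (C.u : F) ^ 2 * (x₁ - x₂) by ring]
    field_simp
    ring

omit [DecidableEq F] in
theorem addX_map (x₁ x₂ ℓ : F) :
    W.toAffine.addX (mapX C x₁) (mapX C x₂) ((C.u : F) * ℓ + C.s) =
      mapX C (V.toAffine.addX x₁ x₂ ℓ) := by
  simp only [Affine.addX, mapX]
  linear_combination a₂_eq hV - (C.u : F) * ℓ * a₁_eq hV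

omit [DecidableEq F] in
theorem addY_map (x₁ x₂ y₁ ℓ : F) :
    W.toAffine.addY (mapX C x₁) (mapX C x₂) (mapY C x₁ y₁) ((C.u : F) * ℓ + C.s) =
      mapY C (V.toAffine.addX x₁ x₂ ℓ) (V.toAffine.addY x₁ x₂ y₁ ℓ) := by
  rw [Affine.addY, Affine.addY, Affine.negAddY, addX_map hV, ← negY_map hV]
  simp only [Affine.negAddY, mapX, mapY]
  congr 1
  ring

/-- The map on points. -/
def pointMap : V.toAffine.Point → W.toAffine.Point
  | .zero => .zero
  | .some x y h => .some (mapX C x) (mapY C x y) (nonsingular_map hV h)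

theorem pointMap_add (P Q : V.toAffine.Point) :
    pointMap hV (P + Q) = pointMap hV P + pointMap hV Q := by
  rcases P with _ | ⟨x₁, y₁, h₁⟩
  · show pointMap hV (0 + Q) = 0 + pointMap hV Q
    rw [zero_add, zero_add]
  rcases Q with _ | ⟨x₂, y₂, h₂⟩
  · show pointMap hV (Affine.Point.some x₁ y₁ h₁ + 0) = pointMap hV _ + 0
    rw [add_zero, add_zero]
  by_cases hxy : x₁ = x₂ ∧ y₁ = V.toAffine.negY x₂ y₂
  · have e : W.toAffine.negY (mapX C x₂) (mapY C x₂ y₂) = mapY C x₂ (V.toAffine.negY x₂ y₂) :=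
      negY_map hV x₂ y₂
    rw [Affine.Point.add_of_Y_eq hxy.1 hxy.2]
    exact (Affine.Point.add_of_Y_eq (by rw [hxy.1]) (by rw [e, hxy.1, hxy.2])).symm
  · have hxy' : ¬(mapX C x₁ = mapX C x₂ ∧
        mapY C x₁ y₁ = W.toAffine.negY (mapX C x₂) (mapY C x₂ y₂)) := by
      rintro ⟨hx, hy⟩
      have hx' := mapX_injective C hx
      subst hx'
      rw [negY_map hV, mapY_inj] at hy
      exact hxy ⟨rfl, hy⟩
    rw [Affine.Point.add_some hxy]
    simp only [pointMap]
    rw [Affine.Point.add_some hxy']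
    simp only [slope_map hV h₁.1 h₂.1 hxy, addX_map hV, addY_map hV]

omit [DecidableEq F] in
theorem pointMap_bijective : Function.Bijective (pointMap hV) := by
  have hW : W = C⁻¹ • V := by rw [hV, inv_smul_smul]
  constructor
  · rintro (_ | ⟨x, y, h⟩) (_ | ⟨x', y', h'⟩) e <;>
      simp only [pointMap, Affine.Point.some.injEq, reduceCtorEq] at e
    · rfl
    · obtain ⟨e1, e2⟩ := e
      obtain rfl := mapX_injective C e1
      obtain rfl := mapY_inj.1 e2
      rfl
  · rintro (_ | ⟨x, y, h⟩)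
    · exact ⟨.zero, rfl⟩
    · refine ⟨.some _ _ (nonsingular_map hW h), ?_⟩
      have i2 : (C.u : F) ^ 2 * (↑C.u⁻¹ : F) ^ 2 = 1 := by rw [← mul_pow, C.u.mul_inv, one_pow]
      have i3 : (C.u : F) ^ 3 * (↑C.u⁻¹ : F) ^ 3 = 1 := by rw [← mul_pow, C.u.mul_inv, one_pow]
      simp only [pointMap, Affine.Point.some.injEq, mapX, mapY, VariableChange.inv_def]
      constructor
      · linear_combination (x - C.r) * i2
      · linear_combination (y - C.s * (x - C.r) - C.t) * i3 + C.s * (x - C.r) * i2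

/-- The group isomorphism on points. -/
def pointAddEquiv : V.toAffine.Point ≃+ W.toAffine.Point :=
  AddEquiv.ofBijective (AddMonoidHom.mk' (pointMap hV) (pointMap_add hV)) (pointMap_bijective hV)

/-- `pointAddEquiv` on affine points. -/
@[simp] theorem pointAddEquiv_some {x y : F} (h : V.toAffine.Nonsingular x y) :
    pointAddEquiv hV (.some x y h) = .some (mapX C x) (mapY C x y) (nonsingular_map hV h) := rfl

end Hom

section Galois

open Affine Affine.Point

variable {S : Type*} [Field S] {K : Type*} [Field K] [DecidableEq K] [Algebra S K]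
  {W₀ : WeierstrassCurve S} (D : VariableChange S)

/-- The isomorphism on `K`-points attached to a change of variables over `S`. -/
def baseChangeEquiv : ((D • W₀).toAffine⁄K).Point ≃+ (W₀.toAffine⁄K).Point :=
  pointAddEquiv (C := D.map (algebraMap S K))
    (map_variableChange W₀ D (algebraMap S K)).symm

/-- The isomorphism commutes with automorphisms over the base. -/
theorem baseChangeEquiv_smul (σ : K ≃ₐ[S] K) (P : ((D • W₀).toAffine⁄K).Point) :
    baseChangeEquiv D (σ • P) = σ • baseChangeEquiv (W₀ := W₀) D P := by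
  rcases P with _ | ⟨x, y, h⟩
  · rfl
  · have hσ : ∀ a : S, σ (algebraMap S K a) = algebraMap S K a := σ.commutes
    simp only [algEquiv_smul_def, baseChangeEquiv]
    show Affine.Point.some _ _ _ = Affine.Point.some _ _ _
    congr 1
    · simp [mapX, hσ]
    · simp [mapY, hσ]

/-- Irreducibility of the `n`-torsion representation is invariant under a change of variables. -/
theorem galoisRepIsIrreducible_variableChange {n : ℕ}
    (h : GaloisRepIsIrreducible (K := K) S W₀.toAffine n) :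
    GaloisRepIsIrreducible (K := K) S (D • W₀).toAffine n := by
  set e := baseChangeEquiv (K := K) (W₀ := W₀) D with he
  let T := Submodule.torsionBy ℤ ((D • W₀).toAffine⁄K).Point n
  let T' := Submodule.torsionBy ℤ (W₀.toAffine⁄K).Point n
  let f : T →+ T' :=
    AddMonoidHom.mk' (fun P => ⟨e P.1, by
      rw [Submodule.mem_torsionBy_iff, ← map_zsmul,
        (Submodule.mem_torsionBy_iff _ _).mp P.2, _root_.map_zero]⟩)
      (fun P Q => Subtype.ext (map_add e P.1 Q.1))
  have hf : Function.Bijective f := by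
    refine ⟨fun P Q hPQ => Subtype.ext (e.injective (congrArg Subtype.val hPQ)), fun Q => ?_⟩
    refine ⟨⟨e.symm Q.1, ?_⟩, Subtype.ext (e.apply_symm_apply Q.1)⟩
    rw [Submodule.mem_torsionBy_iff, ← map_zsmul,
      (Submodule.mem_torsionBy_iff _ _).mp Q.2, _root_.map_zero]
  let g : T ≃ₗ[ZMod n] T' :=
    LinearEquiv.ofBijective (f.toZModLinearMap n) hf
  obtain ⟨hnt, hirr⟩ := h
  refine ⟨?_, fun N hN => ?_⟩
  · have := hnt
    exact g.toEquiv.nontrivial
  · rcases hirr (N.map g.toLinearMap) (by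
      rintro σ _ ⟨x, hx, rfl⟩
      exact ⟨σ • x, hN σ x hx, Subtype.ext (baseChangeEquiv_smul D σ x.1)⟩) with h | h
    · exact Or.inl (Submodule.map_eq_bot_iff.mp h)
    · refine Or.inr (eq_top_iff.mpr fun x _ => ?_)
      obtain ⟨z, hz, hzx⟩ : g x ∈ N.map g.toLinearMap := h ▸ trivial
      exact g.injective hzx ▸ hz

end Galois

end Fermat.Agent.VariableChangePoints

end
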